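import Mathlib
import Fermat.Agent.LT.T1.Spec
import Fermat.Agent.LT.H132.GLDiscrete

/-!
# Row LT, tower T1 — helper132: the interface Prop `T1.DiscreteC K` PROVED

OFF-MAIN.  `GL₂(K)` is discrete and closed in `GL₂(𝔸_K)`, verbatim against
`LT/T1/Spec.lean` (origin/helper54@424fdf719).  On `LT/H132/GLDiscrete.lean` and
`LT/H767/AdeleDiscrete.lean` (helper767: `K` discrete in `𝔸_K`).
-/

set_option autoImplicit false

noncomputable section

namespace Fermat.Agent.LT.T1.H132

/-- **`T1.DiscreteC K`**: `GL₂(K)` is discrete and closed in `GL₂(𝔸_K)`. -/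
theorem discreteC_132 (K : Type) [Field K] [NumberField K] : Fermat.Agent.LT.T1.DiscreteC K :=
  ⟨Fermat.Agent.LT.H132.discreteTopology_glRange K (Fin 2),
    Fermat.Agent.LT.H132.isClosed_glRange K (Fin 2)⟩

end Fermat.Agent.LT.T1.H132
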